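import Fermat.Agent.S59.TW.Aut.Spec
import Fermat.Agent.S58.Spec
import Fermat.Agent.S31.Defs

/-!
# Row S59, cell TW, LAYER 4: the leaf CMP of `TW/Aut/Spec.lean` — interface  (helper314)

`Aut.CmpStatement`: `(w - 1) V = (⟨u⟩_j - 1) V` for every inertia value `w` at `(φ, σ)`, `σ ↦ u`.
Route TW-ALG (`S59/H314/TwAlg.lean`, `TwCmp.lean`, `TwT.lean`, on main): it is enough to know

* **(T)** `TptAt`: a `T_Q`-eigenvector `y ∈ V` (= nonzero vector with PRIME annihilator) with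
  `⟨u⟩_j y = y` satisfies `w y = y`;
* **(R)** `RptAt`: a `T_Q`-eigenvector `y ∈ V` with `(1 + ⟨u⟩_j + … + ⟨u⟩_j^(p-1)) y = 0` satisfies
  `w y ≠ y`;

together with the freeness `Aut.FreeAt V`.  This is `CmpGlueStatement` (pure algebra, helper314).

(T) and (R) are cut into an AUTOMORPHIC half (DICT) and a GALOIS half (GAL) along the notion of a
**newform point** of `T_Q`: a local ring hom `emb : T_Q → O'` into a complete DVR whose values at
the `T_ℓ` are the Hecke eigenvalues of a newform `g` of some level `M` (in the shape of the frozen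
statements S35 / S36: `chig`, `iota`).

| leaf | Prop | content | inputs |
|---|---|---|---|
| CMP-GLUE | `CmpGlueStatement` | `FreeAt` + `TptAt` + `RptAt` ⇒ `CmpAt` | TW-ALG (on main) + `Aut/Skel.lean` |
| DICT-T | `DictTStatement` | eigenvector with `⟨u⟩_j y = y` ⇒ newform point with `q_j² ∤ M` | ES + twist for `Γ₀(q_j) ∩ Γ_H(Q ∖ q_j)` at level `N_Q / q_j` (helper658, helper564), NEWFORM lib |
| DICT-R | `DictRStatement` | eigenvector with `Φ_p(⟨u⟩_j) y = 0` ⇒ newform point with `q_j² ∥ M` | ES + NEB + twist (helper658, helper564) + TW-NS (helper54) |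
| GAL-T | `GalTStatement` | newform point with `q_j² ∤ M` ⇒ `emb w = 1` | frozen S30 (`q_j ∤ M`: unramified), frozen S35 + TW condition (`q_j ∥ M` impossible), Chebotarev |
| GAL-R | `GalRStatement` | newform point with `q_j² ∥ M` ⇒ `emb w ≠ 1` | frozen S36, Chebotarev, `H59.twGal1`, `H59.twGalCyc` |

Glue (`TW/H314/CmpGlue.lean`): `cmp_of_leaves : FreeQStatement → CmpGlueStatement → DictTStatement →
DictRStatement → (S30 → S35 → GalTStatement) → (S36 → GalRStatement) → … → Aut.CmpStatement`.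

Only sorry-free definitions here.
-/

set_option autoImplicit false

open Polynomial IsLocalRing CongruenceSubgroup
open scoped MatrixGroups

namespace Fermat.Agent.S59.TW.H314

open Fermat.Agent.S59.Arch Fermat.Agent.S59.TW.H959 Fermat.Agent.S59.TW.H653
  Fermat.Agent.S59.TW.Aut

section At

variable {p : ℕ}
  {𝒪 : Type} [CommRing 𝒪] [IsDomain 𝒪] [IsDiscreteValuationRing 𝒪]
  [IsAdicComplete (maximalIdeal 𝒪) 𝒪]
  {ρbar : ResidualGaloisRep (ResidueField 𝒪)} {t : PType} {Smin : Finset ℕ}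
  {r : ℕ} {qv : Fin r → ℕ}
  [NeZero (wilesLevel p t Smin (Smin ∪ Finset.univ.image qv))]

/-- `y` is an **eigenvector** of `T_Q` in `V`: a nonzero vector whose annihilator is a prime ideal
(`T_Q / Ann y` is a domain; every associated prime of `V` is of this form). -/
def IsEigVec (PQ : HeckePkg p 𝒪 ρbar t Smin (Smin ∪ Finset.univ.image qv))
    (V : Submodule 𝒪 (XQ p t Smin qv 𝒪)) (a : PQ.T →ₐ[𝒪] Module.End 𝒪 V) (y : V) : Prop :=
  y ≠ 0 ∧ ∀ s s' : PQ.T, a (s * s') y = 0 → a s y = 0 ∨ a s' y = 0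

/-- **(T) at `V`, pointwise**: an eigenvector of `T_Q` fixed by the diamond operator `⟨u⟩_j` is
fixed by the inertia value `w`. -/
def TptAt (PQ : HeckePkg p 𝒪 ρbar t Smin (Smin ∪ Finset.univ.image qv))
    (V : Submodule 𝒪 (XQ p t Smin qv 𝒪)) (a : PQ.T →ₐ[𝒪] Module.End 𝒪 V) : Prop :=
  ∀ (j : Fin r) (P : ValuationSubring Qb), P.LiesOverPrime (qv j) →
    ∀ φ : GQ, P.IsFrobeniusAt φ (qv j) →
    ∀ σ ∈ P.inertiaSubgroupIn ℚ, ∀ u : (ZMod (qv j))ˣ, orderOf u = qv j - 1 →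
      CycloAt (qv j) σ (u : ZMod (qv j)).val →
      ∀ a₀ w : PQ.T, IsInertiaValue PQ.H.ρ φ σ a₀ w →
        ∀ y : V, IsEigVec PQ V a y →
          diaQ p t Smin qv 𝒪 (Pi.mulSingle j u) (y : XQ p t Smin qv 𝒪) = y →
          a w y = y

/-- **(R) at `V`, pointwise**: an eigenvector of `T_Q` on which the diamond operator `⟨u⟩_j` has
order exactly `p` (`Φ_p(⟨u⟩_j) y = 0`) is NOT fixed by the inertia value `w`. -/
def RptAt (PQ : HeckePkg p 𝒪 ρbar t Smin (Smin ∪ Finset.univ.image qv))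
    (V : Submodule 𝒪 (XQ p t Smin qv 𝒪)) (a : PQ.T →ₐ[𝒪] Module.End 𝒪 V) : Prop :=
  ∀ (j : Fin r) (P : ValuationSubring Qb), P.LiesOverPrime (qv j) →
    ∀ φ : GQ, P.IsFrobeniusAt φ (qv j) →
    ∀ σ ∈ P.inertiaSubgroupIn ℚ, ∀ u : (ZMod (qv j))ˣ, orderOf u = qv j - 1 →
      CycloAt (qv j) σ (u : ZMod (qv j)).val →
      ∀ a₀ w : PQ.T, IsInertiaValue PQ.H.ρ φ σ a₀ w →
        ∀ y : V, IsEigVec PQ V a y →
          (∑ k ∈ Finset.range p,
            (diaQ p t Smin qv 𝒪 (Pi.mulSingle j u))^[k] (y : XQ p t Smin qv 𝒪)) = 0 →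
          a w y ≠ y

/-- **A newform point of `T_Q`.**  `emb : T_Q → O'` takes at the `T_ℓ` (`ℓ ∉ Σ_Q`) the Hecke
eigenvalues of a newform `g` of level `M` (all of whose prime factors lie in `Σ_Q`) satisfying `c M`,
in the shape of the frozen statements S35 / S36: `chig` is the eigen-character of `g` on the Hecke
algebra of level `M` and `iota` embeds its values into `O'`. -/
def IsNewPt (PQ : HeckePkg p 𝒪 ρbar t Smin (Smin ∪ Finset.univ.image qv))
    {O' : Type} [CommRing O'] (emb : PQ.T →+* O') (c : ℕ → Prop) : Prop :=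
  ∃ (M : ℕ) (_ : NeZero M) (g : CuspForm (Gamma0 M) 2), g.IsNewform ∧ c M ∧
    (∀ q : ℕ, q.Prime → q ∣ M → q ∈ Smin ∪ Finset.univ.image qv) ∧
    ∃ (chig : CuspForm.heckeAlgebra M 2 (↑(Smin ∪ Finset.univ.image qv) : Set ℕ) →+* ℂ)
      (iota : chig.range →+* O'),
      (∀ (ℓ : ℕ) (hℓ : ℓ.Prime) (hℓM : ¬ ℓ ∣ M)
        (hℓS : ℓ ∉ (↑(Smin ∪ Finset.univ.image qv) : Set ℕ)),
        chig (CuspForm.heckeAlgebra.T hℓ hℓM hℓS) = ModularFormClass.qCoeff g ℓ) ∧
      ∀ (ℓ : ℕ) (hℓ : ℓ.Prime)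
        (hℓN : ¬ ℓ ∣ wilesLevel p t Smin (Smin ∪ Finset.univ.image qv)) (hℓM : ¬ ℓ ∣ M)
        (hℓS : ℓ ∉ (↑(Smin ∪ Finset.univ.image qv) : Set ℕ)),
        iota (chig.rangeRestrict (CuspForm.heckeAlgebra.T hℓ hℓM hℓS)) =
          emb (PQ.H.π (CuspForm.heckeAlgebra.T hℓ hℓN hℓS))

/-- **The eigenvector `y` is a newform point**: there is a newform point `emb : T_Q → O'`, `O'` a
complete DVR of characteristic `0` with finite residue field, `emb` local, whose kernel is the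
annihilator of `y`. -/
def HasNewPt (PQ : HeckePkg p 𝒪 ρbar t Smin (Smin ∪ Finset.univ.image qv))
    (V : Submodule 𝒪 (XQ p t Smin qv 𝒪)) (a : PQ.T →ₐ[𝒪] Module.End 𝒪 V) (y : V)
    (c : ℕ → Prop) : Prop :=
  ∃ (O' : Type) (_ : CommRing O') (_ : IsDomain O') (_ : IsDiscreteValuationRing O')
    (_ : IsAdicComplete (maximalIdeal O') O') (_ : Finite (ResidueField O')) (_ : CharZero O')
    (emb : PQ.T →+* O'), IsLocalHom emb ∧ (∀ s : PQ.T, a s y = 0 ↔ emb s = 0) ∧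
      IsNewPt PQ emb c

end At

/-! ## The leaves, as closed statements -/

/-- **CMP-GLUE** (pure algebra, route TW-ALG).  Freeness + (T) + (R) ⇒ `CmpAt`. -/
def CmpGlueStatement : Prop :=
  ∀ (p : ℕ) [Fact p.Prime]
    (𝒪 : Type) [CommRing 𝒪] [IsDomain 𝒪] [IsDiscreteValuationRing 𝒪]
    [IsAdicComplete (maximalIdeal 𝒪) 𝒪] [Finite (ResidueField 𝒪)] [CharZero 𝒪]
    (ρbar : ResidualGaloisRep (ResidueField 𝒪)) (Smin : Finset ℕ)
    (_h : ResidualHyp p 𝒪 ρbar Smin) (t : PType)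
    [NeZero (wilesLevel p t Smin Smin)]
    (n r : ℕ) (qv : Fin r → ℕ) (_hq : IsTWSet p ρbar Smin n qv)
    [NeZero (wilesLevel p t Smin (Smin ∪ Finset.univ.image qv))]
    (PQ : HeckePkg p 𝒪 ρbar t Smin (Smin ∪ Finset.univ.image qv))
    (α : Fin r → 𝒪)
    (V : Submodule 𝒪 (XQ p t Smin qv 𝒪)) (h : ℕ) (a : PQ.T →ₐ[𝒪] Module.End 𝒪 V),
    IsQPart PQ α V → IsQAction PQ V h a → FreeAt V → TptAt PQ V a → RptAt PQ V a →
      CmpAt PQ V a

/-- **DICT-T** (automorphic).  An eigenvector of `T_Q` in `V` fixed by `⟨u⟩_j` is a newform point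
of a level `M` with `q_j² ∤ M`.
(`V^{⟨u⟩_j = 1}` is, up to `p`-power index, the restriction of the localisation of
`Hom(K', 𝒪)`, `K' = Γ₀(q_j) ∩ Γ_H(Q ∖ q_j) ⊇ K_Q`; Eichler–Shimura + twist for `K'` map its
eigen-systems to `S₂(Γ₀(N_Q / q_j))`; take a minimal level.) -/
def DictTStatement : Prop :=
  ∀ (p : ℕ) [Fact p.Prime]
    (𝒪 : Type) [CommRing 𝒪] [IsDomain 𝒪] [IsDiscreteValuationRing 𝒪]
    [IsAdicComplete (maximalIdeal 𝒪) 𝒪] [Finite (ResidueField 𝒪)] [CharZero 𝒪]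
    (ρbar : ResidualGaloisRep (ResidueField 𝒪)) (Smin : Finset ℕ)
    (_h : ResidualHyp p 𝒪 ρbar Smin) (t : PType)
    (_ht : (t = .flat ∧ (GaloisRepAdic.ofResidualGaloisRep ρbar).IsFlatAt p) ∨
      (t = .sord ∧ (GaloisRepAdic.ofResidualGaloisRep ρbar).IsStrictOrdinaryAt p ∧
        ¬ (GaloisRepAdic.ofResidualGaloisRep ρbar).IsFlatAt p))
    [NeZero (wilesLevel p t Smin Smin)]
    (n r : ℕ) (qv : Fin r → ℕ) (_hq : IsTWSet p ρbar Smin n qv)
    [NeZero (wilesLevel p t Smin (Smin ∪ Finset.univ.image qv))]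
    (PQ : HeckePkg p 𝒪 ρbar t Smin (Smin ∪ Finset.univ.image qv))
    (α : Fin r → 𝒪) (_hα : IsFrobLift ρbar qv α)
    (V : Submodule 𝒪 (XQ p t Smin qv 𝒪)) (h : ℕ) (a : PQ.T →ₐ[𝒪] Module.End 𝒪 V),
    IsQPart PQ α V → IsHalf p qv h → IsQAction PQ V h a →
    ∀ (j : Fin r) (u : (ZMod (qv j))ˣ), orderOf u = qv j - 1 →
      ∀ y : V, IsEigVec PQ V a y →
        diaQ p t Smin qv 𝒪 (Pi.mulSingle j u) (y : XQ p t Smin qv 𝒪) = y →
        HasNewPt PQ V a y (fun M => ¬ qv j ^ 2 ∣ M)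

/-- **DICT-R** (automorphic).  An eigenvector of `T_Q` in `V` on which `⟨u⟩_j` has order exactly
`p` is a newform point of a level `M` with `q_j² ∥ M`.
(Eichler–Shimura for `K_Q`: the eigen-system comes from a cusp form `f` with nebentypus `χ`,
`χ_j(u)` a primitive `p`-th root of unity; its twist `f ⊗ χ^h` has trivial character [`IsHalf`]
and is `q_j²`-new: TW-NS, helper54.) -/
def DictRStatement : Prop :=
  ∀ (p : ℕ) [Fact p.Prime]
    (𝒪 : Type) [CommRing 𝒪] [IsDomain 𝒪] [IsDiscreteValuationRing 𝒪]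
    [IsAdicComplete (maximalIdeal 𝒪) 𝒪] [Finite (ResidueField 𝒪)] [CharZero 𝒪]
    (ρbar : ResidualGaloisRep (ResidueField 𝒪)) (Smin : Finset ℕ)
    (_h : ResidualHyp p 𝒪 ρbar Smin) (t : PType)
    (_ht : (t = .flat ∧ (GaloisRepAdic.ofResidualGaloisRep ρbar).IsFlatAt p) ∨
      (t = .sord ∧ (GaloisRepAdic.ofResidualGaloisRep ρbar).IsStrictOrdinaryAt p ∧
        ¬ (GaloisRepAdic.ofResidualGaloisRep ρbar).IsFlatAt p))
    [NeZero (wilesLevel p t Smin Smin)]
    (n r : ℕ) (qv : Fin r → ℕ) (_hq : IsTWSet p ρbar Smin n qv)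
    [NeZero (wilesLevel p t Smin (Smin ∪ Finset.univ.image qv))]
    (PQ : HeckePkg p 𝒪 ρbar t Smin (Smin ∪ Finset.univ.image qv))
    (α : Fin r → 𝒪) (_hα : IsFrobLift ρbar qv α)
    (V : Submodule 𝒪 (XQ p t Smin qv 𝒪)) (h : ℕ) (a : PQ.T →ₐ[𝒪] Module.End 𝒪 V),
    IsQPart PQ α V → IsHalf p qv h → IsQAction PQ V h a →
    ∀ (j : Fin r) (u : (ZMod (qv j))ˣ), orderOf u = qv j - 1 →
      ∀ y : V, IsEigVec PQ V a y →
        (∑ k ∈ Finset.range p,
          (diaQ p t Smin qv 𝒪 (Pi.mulSingle j u))^[k] (y : XQ p t Smin qv 𝒪)) = 0 →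
        HasNewPt PQ V a y (fun M => M.factorization (qv j) = 2)

/-- **GAL-T** (Galois).  At a newform point of level `M` with `q_j² ∤ M` the inertia value is `1`.
(`q_j ∤ M`: the representation of the frozen S30 at level `M` is unramified at `q_j` and has the
same Frobenius characteristic polynomials as `ρ_Q ⊗ O''`, so the same traces [Chebotarev];
the inertia value is a formula in traces.  `q_j ∥ M`: impossible, by the frozen S35 the Frobenius
at `q_j` would have eigenvalues `±1, ±q_j`, equal modulo `p`.) -/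
def GalTStatement : Prop :=
  ∀ (p : ℕ) [Fact p.Prime]
    (𝒪 : Type) [CommRing 𝒪] [IsDomain 𝒪] [IsDiscreteValuationRing 𝒪]
    [IsAdicComplete (maximalIdeal 𝒪) 𝒪] [Finite (ResidueField 𝒪)] [CharZero 𝒪]
    (ρbar : ResidualGaloisRep (ResidueField 𝒪)) (Smin : Finset ℕ)
    (_h : ResidualHyp p 𝒪 ρbar Smin) (t : PType)
    [NeZero (wilesLevel p t Smin Smin)]
    (n r : ℕ) (qv : Fin r → ℕ) (_hq : IsTWSet p ρbar Smin n qv)
    [NeZero (wilesLevel p t Smin (Smin ∪ Finset.univ.image qv))]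
    (PQ : HeckePkg p 𝒪 ρbar t Smin (Smin ∪ Finset.univ.image qv))
    (j : Fin r) (P : ValuationSubring Qb), P.LiesOverPrime (qv j) →
    ∀ φ : GQ, P.IsFrobeniusAt φ (qv j) →
    ∀ σ ∈ P.inertiaSubgroupIn ℚ,
      ∀ a₀ w : PQ.T, IsInertiaValue PQ.H.ρ φ σ a₀ w →
      ∀ (O' : Type) [CommRing O'] [IsDomain O'] [IsDiscreteValuationRing O']
        [IsAdicComplete (maximalIdeal O') O'] [Finite (ResidueField O')] [CharZero O']
        (emb : PQ.T →+* O'), IsLocalHom emb →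
        IsNewPt PQ emb (fun M => ¬ qv j ^ 2 ∣ M) → emb w = 1

/-- **GAL-R** (Galois).  At a newform point of level `M` with `q_j² ∥ M` the inertia value at
`(φ, σ)`, `σ ↦` a primitive root, is not `1`.
(Frozen S36: some representation attached to `g` is not unipotent on inertia at `q_j`; it has the
same characteristic polynomials as `ρ_Q ⊗ O''` [Chebotarev]; if `emb w = 1` then `ρ_Q ⊗ O''` is
unramified at `q_j`: `H59.twGal1` [diagonal on the decomposition group] + `H59.twGalCyc`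
[inertia acts through `(ℤ/q_j)ˣ`, generated by `σ`].) -/
def GalRStatement : Prop :=
  ∀ (p : ℕ) [Fact p.Prime]
    (𝒪 : Type) [CommRing 𝒪] [IsDomain 𝒪] [IsDiscreteValuationRing 𝒪]
    [IsAdicComplete (maximalIdeal 𝒪) 𝒪] [Finite (ResidueField 𝒪)] [CharZero 𝒪]
    (ρbar : ResidualGaloisRep (ResidueField 𝒪)) (Smin : Finset ℕ)
    (_h : ResidualHyp p 𝒪 ρbar Smin) (t : PType)
    [NeZero (wilesLevel p t Smin Smin)]
    (n r : ℕ) (qv : Fin r → ℕ) (_hq : IsTWSet p ρbar Smin n qv)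
    [NeZero (wilesLevel p t Smin (Smin ∪ Finset.univ.image qv))]
    (PQ : HeckePkg p 𝒪 ρbar t Smin (Smin ∪ Finset.univ.image qv))
    (j : Fin r) (P : ValuationSubring Qb), P.LiesOverPrime (qv j) →
    ∀ φ : GQ, P.IsFrobeniusAt φ (qv j) →
    ∀ σ ∈ P.inertiaSubgroupIn ℚ, ∀ u : (ZMod (qv j))ˣ, orderOf u = qv j - 1 →
      CycloAt (qv j) σ (u : ZMod (qv j)).val →
      ∀ a₀ w : PQ.T, IsInertiaValue PQ.H.ρ φ σ a₀ w →
      ∀ (O' : Type) [CommRing O'] [IsDomain O'] [IsDiscreteValuationRing O']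
        [IsAdicComplete (maximalIdeal O') O'] [Finite (ResidueField O')] [CharZero O']
        (emb : PQ.T →+* O'), IsLocalHom emb →
        IsNewPt PQ emb (fun M => M.factorization (qv j) = 2) → emb w ≠ 1

end Fermat.Agent.S59.TW.H314
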