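import Fermat.Agent.S59.TW.H314.CmpWire
import Fermat.Agent.S59.TW.H81.DictT
import Fermat.Agent.S59.TW.Aut.H779.FreeQ

/-!
# Row S59, cell TW, layer 3 leaf CMP: the wiring, second round  (helper314)

`cmp_of_dictR`: the leaf `Aut.CmpStatement` from the LAST open leaf DICT-R (`CmpSpec.lean`) and
the frozen statements S30, S35, S36.  Plugged: FREE (`Aut.H779.freeQ_h779`, helper779), DICT-T
(`H81.dictT`, helper81), GAL-T (`galT`), GAL-R (`H788.galR788`, helper788), CMP-GLUE (`cmpGlue`).
-/

set_option autoImplicit false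

namespace Fermat.Agent.S59.TW.H314

open Fermat.Agent.S59.TW.Aut

/-- **Leaf CMP from DICT-R + S30 + S35 + S36.** -/
theorem cmp_of_dictR (dR : DictRStatement)
    (h30 : Fermat.Agent.S31.S30Statement) (h35 : Fermat.Agent.S58.S35Statement)
    (h36 : Fermat.Agent.S58.S36Statement) : CmpStatement :=
  cmp_of_dict Fermat.Agent.S59.TW.Aut.H779.freeQ_h779 Fermat.Agent.S59.TW.H81.dictT dR h30 h35 h36

end Fermat.Agent.S59.TW.H314
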