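import Fermat.Agent.S59.TW.H314.CmpWire2
import Fermat.Agent.S59.TW.Aut.H673.DictR

/-!
# Row S59, cell TW, layer 3 leaf CMP: CLOSED modulo the frozen S30, S35, S36  (helper314)

`cmp_of_frozen : S30Statement → S35Statement → S36Statement → Aut.CmpStatement`.
Plugged: CMP-GLUE (`cmpGlue`), FREE (`Aut.H779.freeQ_h779`, helper779), DICT-T (`H81.dictT`,
helper81), DICT-R (`Aut.H673.dictR`, helper673), GAL-T (`galT`), GAL-R (`H788.galR788`,
helper788).  The three hypotheses are the types of the frozen statements S30, S35, S36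
(`S31/Defs.lean`, `S58/Spec.lean`), all three on main.
-/

set_option autoImplicit false

namespace Fermat.Agent.S59.TW.H314

open Fermat.Agent.S59.TW.Aut

/-- **Leaf CMP from the frozen S30 + S35 + S36.** -/
theorem cmp_of_frozen
    (h30 : Fermat.Agent.S31.S30Statement) (h35 : Fermat.Agent.S58.S35Statement)
    (h36 : Fermat.Agent.S58.S36Statement) : CmpStatement :=
  cmp_of_dictR Fermat.Agent.S59.TW.Aut.H673.dictR h30 h35 h36

end Fermat.Agent.S59.TW.H314
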