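import Fermat.Agent.S59.TW.H314.CmpSpec
import Fermat.Agent.S59.TW.Aut.Skel
import Fermat.Agent.S59.TW.H123.InertiaOrder
import Fermat.Agent.S59.H314.TwPt

/-!
# Row S59, cell TW, layer 4: leaf CMP-GLUE and the glue of the leaf CMP  (helper314)

* `cmpGlue : CmpGlueStatement` — `FreeAt V` + `TptAt` + `RptAt` ⇒ `CmpAt` (route TW-ALG:
  `H314.twCmp_of_pt`, Mathlib only, applied to `Aut.ModOf V a` with the diamond action `Aut.diaT`;
  the order of the inertia value is INO, `TW.H123.inertiaOrder`).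
* `tptAt_of`, `rptAt_of` — (T), (R) from the dictionary and the Galois leaves.
* `cmp_of_leaves : FreeQStatement → DictTStatement → DictRStatement → GalTStatement →
  GalRStatement → Aut.CmpStatement`.
-/

set_option autoImplicit false
set_option linter.style.haveILetI false

open Polynomial IsLocalRing CongruenceSubgroup
open scoped MatrixGroups

namespace Fermat.Agent.S59.TW.H314

open Fermat.Agent.S59.Arch Fermat.Agent.S59.TW.H959 Fermat.Agent.S59.TW.H653
  Fermat.Agent.S59.TW.Aut

/-- **CMP-GLUE.** -/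
theorem cmpGlue : CmpGlueStatement := by
  classical
  intro p hpF 𝒪 _ _ _ _ _ _ ρbar Smin h t _ n r qv hq _ PQ α V hh a hV ha hfree hT hR
  have hprime : ∀ j, (qv j).Prime := fun j => (hq.2.1 j).1
  have hinj : Function.Injective qv := hq.1
  have hM : NeZero (bLevel (wilesLevel p t Smin Smin) qv) :=
    ⟨Nat.mul_ne_zero (NeZero.ne _) (Finset.prod_ne_zero_iff.mpr fun j _ => (hprime j).ne_zero)⟩
  have hred := red_surjective (wilesLevel p t Smin Smin) qv (NeZero.ne _) hinj hprime
  have hcomm : ∀ (hV : IsQPart PQ α V) (u : ∀ j : Fin r, (ZMod (qv j))ˣ)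
      (s : PQ.T) (v : V), diaV hV u (a s v) = a s (diaV hV u v) :=
    fun hV' u s v => diaV_comm PQ α V hh a h.hSmin h.hpSmin hprime hV' ha u s v
  let D : (∀ j : Fin r, (ZMod (qv j))ˣ) →* Module.End PQ.T (ModOf V a) :=
    { toFun := fun u => diaT PQ α V a hcomm hV u
      map_one' := by
        refine LinearMap.ext fun y => ?_
        apply ModOf.val_injective
        apply Subtype.ext
        rw [val_diaT]
        exact diaQ_one p t Smin qv 𝒪 _
      map_mul' := by
        intro u u'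
        refine LinearMap.ext fun y => ?_
        apply ModOf.val_injective
        apply Subtype.ext
        rw [val_diaT, Module.End.mul_apply, val_diaT, val_diaT]
        exact diaQ_mul p t Smin qv 𝒪 hred u u' _ }
  have hD : ∀ u y, ((ModOf.val V a (D u y) : V) : XQ p t Smin qv 𝒪) =
      diaQ p t Smin qv 𝒪 u (ModOf.val V a y : V) := fun u y => rfl
  have hDpow : ∀ (u : ∀ j : Fin r, (ZMod (qv j))ˣ) (k : ℕ) (y : ModOf V a),
      ((ModOf.val V a ((D u ^ k) y) : V) : XQ p t Smin qv 𝒪) =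
        (diaQ p t Smin qv 𝒪 u)^[k] (ModOf.val V a y : V) := by
    intro u k
    induction k with
    | zero => intro y; rfl
    | succ k ih =>
      intro y
      rw [pow_succ, Module.End.mul_apply, ih, hD, Function.iterate_succ_apply]
  intro j P hP φ hφ σ hσ u hu hcyc a₀ w hw
  -- the order of `w`
  obtain ⟨-, hqv, -⟩ := hq
  obtain ⟨hqprime, hqS, hqdvd⟩ := hqv j
  have hdet : PQ.H.ρ.DetIsCyclotomic p := by
    have h1 := PQ.hcond.1
    cases t <;> exact h1.1
  have hqp : qv j ≠ p := fun e => hqS (e ▸ h.hpSmin)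
  have hpq : p ∣ qv j - 1 := dvd_trans (dvd_pow_self p (Nat.succ_ne_zero n)) hqdvd
  have hunr : PQ.H.ρ.residual.IsUnramifiedAt (qv j) := by
    have h1 : ρbar.IsUnramifiedAt (qv j) := by
      by_contra hcon
      exact hqS ((h.hmin (qv j) hqprime hqp).mpr hcon)
    obtain ⟨e⟩ := PQ.hres
    intro B hB τ hτ
    have h2 : (ρbar.baseChangeAlong (ResidueField.map (algebraMap 𝒪 PQ.T))).ρ τ = 1 := by
      letI : Algebra (ResidueField 𝒪) (ResidueField PQ.T) :=
        (ResidueField.map (algebraMap 𝒪 PQ.T)).toAlgebra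
      show (ρbar.ρ τ).baseChange (ResidueField PQ.T) = 1
      rw [h1 B hB τ hτ]
      exact LinearMap.baseChange_one _ _
    refine LinearMap.ext fun x => ?_
    apply e.toLinearEquiv.injective
    rw [e.map_apply, h2]
    rfl
  haveI : Finite (ResidueField PQ.T) := IsLocalRing.ResidueField.finite_of_finite (R := 𝒪) ‹_›
  obtain ⟨w', -, hwp, -⟩ :=
    Fermat.Agent.S59.TW.H123.inertiaOrder p PQ.T hdet.1 PQ.H.ρ hdet (qv j) hqprime hqp hpq hunr
      P hP φ hφ σ hσ a₀ w hw
  -- primitive roots at the other primes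
  have hprim : ∀ i, ∃ g : (ZMod (qv i))ˣ, orderOf g = qv i - 1 := by
    intro i
    have : Fact (qv i).Prime := ⟨hprime i⟩
    have := ZMod.isCyclic_units_prime (hprime i)
    obtain ⟨g, hg⟩ := IsCyclic.exists_ofOrder_eq_natCard (α := (ZMod (qv i))ˣ)
    refine ⟨g, ?_⟩
    rw [hg, Nat.card_eq_fintype_card, ZMod.card_units]
  choose g₀ hg₀ using hprim
  obtain ⟨g, hgj, hg⟩ : ∃ g : ∀ i : Fin r, (ZMod (qv i))ˣ, g j = u ∧
      ∀ i, orderOf (g i) = qv i - 1 := by
    refine ⟨Function.update g₀ j u, Function.update_self .., ?_⟩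
    intro i
    by_cases h : i = j
    · subst h
      rw [Function.update_self]
      exact hu
    · rw [Function.update_of_ne h]
      exact hg₀ i
  -- the basis
  obtain ⟨d, b, hb⟩ := hfree g hg
  have hb' : ∀ y : ModOf V a,
      ∃! c : Fin d → (∀ j : Fin r, Fin (p ^ padicValNat p (qv j - 1))) → 𝒪,
        y = ∑ i, ∑ e, algebraMap 𝒪 PQ.T (c i e) •
          D (fun j => g j ^ (e j : ℕ)) (ModOf.mk V a (b i)) := by
    intro y
    have key : ∀ c : Fin d → (∀ j : Fin r, Fin (p ^ padicValNat p (qv j - 1))) → 𝒪,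
        (y = ∑ i, ∑ e, algebraMap 𝒪 PQ.T (c i e) •
            D (fun j => g j ^ (e j : ℕ)) (ModOf.mk V a (b i))) ↔
        ((ModOf.val V a y : V) : XQ p t Smin qv 𝒪) =
          ∑ i, ∑ e, c i e • diaQ p t Smin qv 𝒪 (fun j => g j ^ (e j : ℕ)) (b i) := by
      intro c
      have hsum : ((ModOf.val V a (∑ i, ∑ e, algebraMap 𝒪 PQ.T (c i e) •
            D (fun j => g j ^ (e j : ℕ)) (ModOf.mk V a (b i))) : V) : XQ p t Smin qv 𝒪) =
          ∑ i, ∑ e, c i e • diaQ p t Smin qv 𝒪 (fun j => g j ^ (e j : ℕ)) (b i) := by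
        rw [ModOf.val_sum, Submodule.coe_sum]
        refine Finset.sum_congr rfl fun i _ => ?_
        rw [ModOf.val_sum, Submodule.coe_sum]
        refine Finset.sum_congr rfl fun e _ => ?_
        rw [ModOf.val_algebraMap_smul, Submodule.coe_smul, hD]
        rfl
      constructor
      · intro hy
        rw [← hsum, ← hy]
      · intro hy
        apply ModOf.val_injective
        apply Subtype.ext
        rw [hsum]
        exact hy
    obtain ⟨c, hc, huniq⟩ := hb (ModOf.val V a y)
    exact ⟨c, (key c).mpr hc, fun c' hc' => huniq c' ((key c').mp hc')⟩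
  have hX : ∀ i, D (Pi.mulSingle i (g i)) ^ (p ^ padicValNat p (qv i - 1)) = 1 := by
    intro i
    rw [← map_pow]
    refine LinearMap.ext fun y => ?_
    apply ModOf.val_injective
    apply Subtype.ext
    rw [hD]
    have h1 : (Pi.mulSingle i (g i) ^ p ^ padicValNat p (qv i - 1) :
        ∀ j : Fin r, (ZMod (qv j))ˣ) =
        fun j => (Pi.mulSingle i (g i) : ∀ j : Fin r, (ZMod (qv j))ˣ) j ^
          p ^ padicValNat p (qv j - 1) := by
      funext i'
      by_cases h : i' = i
      · subst h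
        simp
      · simp [Pi.mulSingle_eq_of_ne h]
    rw [h1]
    exact diaQ_pow p t Smin qv 𝒪 hred _ _
  have hpJ : (p : 𝒪) ∈ Ideal.jacobson (⊥ : Ideal 𝒪) := maximalIdeal_le_jacobson ⊥ h.hp𝒪
  have hpnzd : ∀ c : 𝒪, (p : 𝒪) * c = 0 → c = 0 := by
    intro c hc
    rcases mul_eq_zero.mp hc with h' | h'
    · exact absurd h' (by exact_mod_cast hpF.out.ne_zero)
    · exact h'
  haveI : IsNoetherianRing PQ.T := PQ.isNoetherianRing
  -- eigenvectors
  have heig : ∀ y : ModOf V a, y ≠ 0 →
      (∀ s s' : PQ.T, (s * s') • y = 0 → s • y = 0 ∨ s' • y = 0) →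
      IsEigVec PQ V a (ModOf.val V a y) := by
    intro y hy hpr
    exact ⟨hy, fun s s' hss' => hpr s s' hss'⟩
  have key := Fermat.Agent.S59.H314.twCmp_of_pt p hpF.out h.hp2 𝒪 hpJ hpnzd PQ.T (ModOf V a) r
    (fun i => (ZMod (qv i))ˣ) (fun i => padicValNat p (qv i - 1)) D g hX d
    (fun i => ModOf.mk V a (b i)) hb' j w _ hwp
    (by
      intro y hy hpr hfix
      rw [hgj] at hfix
      have h1 := hT j P hP φ hφ σ hσ u hu hcyc a₀ w hw (ModOf.val V a y) (heig y hy hpr)
        (by
          have := congrArg (fun z : ModOf V a => ((ModOf.val V a z : V) : XQ p t Smin qv 𝒪)) hfix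
          simpa [hD] using this)
      exact h1)
    (by
      intro y hy hpr hΦ
      rw [hgj] at hΦ
      have h1 := hR j P hP φ hφ σ hσ u hu hcyc a₀ w hw (ModOf.val V a y) (heig y hy hpr)
        (by
          have h2 : ((ModOf.val V a ((∑ k ∈ Finset.range p, D (Pi.mulSingle j u) ^ k) y) : V) :
              XQ p t Smin qv 𝒪) = 0 := by
            rw [hΦ]
            rfl
          rw [LinearMap.sum_apply, ModOf.val_sum, Submodule.coe_sum] at h2
          rw [← h2]
          refine Finset.sum_congr rfl fun k _ => ?_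
          rw [hDpow])
      exact h1)
  rw [hgj] at key
  intro y
  have key' := key (ModOf.mk V a y)
  constructor
  · rintro ⟨y', hy'⟩
    obtain ⟨z, hz⟩ := key'.mp ⟨ModOf.mk V a y', hy'⟩
    refine ⟨ModOf.val V a z, ?_⟩
    have := congrArg (fun x : ModOf V a => ((ModOf.val V a x : V) : XQ p t Smin qv 𝒪)) hz
    exact this
  · rintro ⟨y', hy'⟩
    obtain ⟨z, hz⟩ := key'.mpr ⟨ModOf.mk V a y', Subtype.ext hy'⟩
    exact ⟨ModOf.val V a z, hz⟩

/-- **The leaf CMP from its layer-4 leaves.** -/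
theorem cmp_of_leaves (hFree : FreeQStatement) (hDT : DictTStatement) (hDR : DictRStatement)
    (hGT : GalTStatement) (hGR : GalRStatement) : CmpStatement := by
  intro p hpF 𝒪 _ _ _ _ _ _ ρbar Smin h t ht _ P₀ n r qv hq _ PQ res hres α hα V hh a hV hhalf ha
  have hfree : FreeAt V := hFree p 𝒪 ρbar Smin h t ht P₀ n r qv hq PQ res hres α hα V hV
  have hsub : ∀ (w : PQ.T) (y : V), a (w - 1) y = a w y - y := by
    intro w y
    have h1 : a w = a (w - 1) + 1 := by
      rw [← map_one a, ← map_add, sub_add_cancel]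
    rw [h1, LinearMap.add_apply, Module.End.one_apply]
    exact (add_sub_cancel_right (a (w - 1) y) y).symm
  have hT : TptAt PQ V a := by
    intro j P hP φ hφ σ hσ u hu _hcyc a₀ w hw y hy hfix
    obtain ⟨O', _, _, _, _, _, _, emb, hloc, hker, hnew⟩ :=
      hDT p 𝒪 ρbar Smin h t ht n r qv hq PQ α hα V hh a hV hhalf ha j u hu y hy hfix
    have h1 : emb w = 1 :=
      hGT p 𝒪 ρbar Smin h t n r qv hq PQ j P hP φ hφ σ hσ a₀ w hw O' emb hloc hnew
    have h2 : a (w - 1) y = 0 := by
      rw [hker, map_sub, h1, map_one, sub_self]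
    have h3 := hsub w y
    rw [h2] at h3
    exact sub_eq_zero.mp h3.symm
  have hR : RptAt PQ V a := by
    intro j P hP φ hφ σ hσ u hu hcyc a₀ w hw y hy hΦ hwy
    obtain ⟨O', _, _, _, _, _, _, emb, hloc, hker, hnew⟩ :=
      hDR p 𝒪 ρbar Smin h t ht n r qv hq PQ α hα V hh a hV hhalf ha j u hu y hy hΦ
    have h1 : emb w ≠ 1 :=
      hGR p 𝒪 ρbar Smin h t n r qv hq PQ j P hP φ hφ σ hσ u hu hcyc a₀ w hw O' emb hloc hnew
    apply h1
    have h2 : a (w - 1) y = 0 := by
      rw [hsub, hwy]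
      exact sub_self y
    have h3 := (hker (w - 1)).mp h2
    rw [map_sub, map_one, sub_eq_zero] at h3
    exact h3
  exact cmpGlue p 𝒪 ρbar Smin h t n r qv hq PQ α V hh a hV ha hfree hT hR

end Fermat.Agent.S59.TW.H314
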