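import Fermat.Agent.S59.TW.Spec
import Fermat.Agent.S59.H314.TwCmp

/-!
# S59, cell TW, layer 2: route TW-ALG — `TwOrd + TwT + TwR ⇒ AutLevel.Cmp`  (helper314)

`AutLevel.Cmp` (the comparison of the Galois and the diamond structure on `M_Q`, consumed by ASM / ALG)
follows, by the elementary lemma TW-ALG (`S59/H314/TwAlg.lean`), from
* `TwOrd`: an inertia value `w` has finite `p`-power order (INO),
* `TwT`:   `(w - 1) M_Q ⊆ (dia_j a - 1) M_Q`,
* `TwR`:   `w y = y` and `(1 + X + ... + X^(p-1)) y = 0` (`X = dia_j a`) imply `y = 0`.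
No local–global compatibility (`Lgc`) is used.
-/

set_option autoImplicit false

open IsLocalRing

namespace Fermat.Agent.S59.TW.H314

open Fermat.Agent.S59.Arch Fermat.Agent.S59.TW.H959 Fermat.Agent.S59.TW

section

variable {p : ℕ}
  {𝒪 : Type} [CommRing 𝒪] [IsDomain 𝒪] [IsDiscreteValuationRing 𝒪]
  [IsAdicComplete (maximalIdeal 𝒪) 𝒪]
  {ρbar : ResidualGaloisRep (ResidueField 𝒪)} {t : PType} {Smin : Finset ℕ}
  [NeZero (wilesLevel p t Smin Smin)] {P₀ : HeckePkg p 𝒪 ρbar t Smin Smin}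
  {M₀ : Type} [AddCommGroup M₀] [Module P₀.T M₀] {r : ℕ} {qv : Fin r → ℕ}
  [NeZero (wilesLevel p t Smin (Smin ∪ Finset.univ.image qv))]
  {PQ : HeckePkg p 𝒪 ρbar t Smin (Smin ∪ Finset.univ.image qv)}
  {res : PQ.T →ₐ[𝒪] P₀.T}

/-- **(Ord)**: every inertia value at a Taylor–Wiles prime has finite `p`-power order
(consequence of `TW.InertiaOrderStatement`). -/
def TwOrd (_A : AutLevel P₀ M₀ qv PQ res) : Prop :=
  ∀ (j : Fin r) (P : ValuationSubring Qb), P.LiesOverPrime (qv j) →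
    ∀ φ : GQ, P.IsFrobeniusAt φ (qv j) →
    ∀ σ ∈ P.inertiaSubgroupIn ℚ, ∀ a : (ZMod (qv j))ˣ, orderOf a = qv j - 1 →
      CycloAt (qv j) σ (a : ZMod (qv j)).val →
      ∀ a₀ w : PQ.T, IsInertiaValue PQ.H.ρ φ σ a₀ w → ∃ k : ℕ, w ^ (p ^ k) = 1

/-- **(T)**: the inertia value acts trivially on the `Δ_{q_j}`-coinvariants of `M_Q`. -/
def TwT (A : AutLevel P₀ M₀ qv PQ res) : Prop :=
  ∀ (j : Fin r) (P : ValuationSubring Qb), P.LiesOverPrime (qv j) →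
    ∀ φ : GQ, P.IsFrobeniusAt φ (qv j) →
    ∀ σ ∈ P.inertiaSubgroupIn ℚ, ∀ a : (ZMod (qv j))ˣ, orderOf a = qv j - 1 →
      CycloAt (qv j) σ (a : ZMod (qv j)).val →
      ∀ a₀ w : PQ.T, IsInertiaValue PQ.H.ρ φ σ a₀ w →
        ∀ y : A.MQ, ∃ y' : A.MQ, w • y - y = A.dia (Pi.mulSingle j a) y' - y'

/-- **(R)**: on the part of `M_Q` where the diamond operator at `q_j` has order exactly `p`
(the kernel of `1 + X + ... + X^(p-1)`, `X = dia_j a`), the inertia value has no fixed vector. -/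
def TwR (A : AutLevel P₀ M₀ qv PQ res) : Prop :=
  ∀ (j : Fin r) (P : ValuationSubring Qb), P.LiesOverPrime (qv j) →
    ∀ φ : GQ, P.IsFrobeniusAt φ (qv j) →
    ∀ σ ∈ P.inertiaSubgroupIn ℚ, ∀ a : (ZMod (qv j))ˣ, orderOf a = qv j - 1 →
      CycloAt (qv j) σ (a : ZMod (qv j)).val →
      ∀ a₀ w : PQ.T, IsInertiaValue PQ.H.ρ φ σ a₀ w →
        ∀ y : A.MQ, w • y = y →
          (∑ k ∈ Finset.range p, A.dia (Pi.mulSingle j a) ^ k) y = 0 → y = 0

/-- **CMPA** (route TW-ALG): `TwOrd + TwT + TwR ⇒ Cmp`. -/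
theorem cmp_of_TR (hp : p.Prime) (hp2 : p ≠ 2) (hp𝒪 : (p : 𝒪) ∈ maximalIdeal 𝒪) [CharZero 𝒪]
    (hqv : ∀ i, (qv i).Prime) (A : AutLevel P₀ M₀ qv PQ res)
    (hO : TwOrd A) (hT : TwT A) (hR : TwR A) : A.Cmp := by
  classical
  intro j P hP φ hφ σ hσ a ha hcyc a₀ w hw
  obtain ⟨k, hk⟩ := hO j P hP φ hφ σ hσ a ha hcyc a₀ w hw
  -- primitive roots at the other primes
  have hprim : ∀ i, ∃ g : (ZMod (qv i))ˣ, orderOf g = qv i - 1 := by
    intro i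
    have : Fact (qv i).Prime := ⟨hqv i⟩
    have := ZMod.isCyclic_units_prime (hqv i)
    obtain ⟨g, hg⟩ := IsCyclic.exists_ofOrder_eq_natCard (α := (ZMod (qv i))ˣ)
    refine ⟨g, ?_⟩
    rw [hg, Nat.card_eq_fintype_card, ZMod.card_units]
  choose g₀ hg₀ using hprim
  obtain ⟨g, hgj, hg⟩ : ∃ g : ∀ i : Fin r, (ZMod (qv i))ˣ, g j = a ∧
      ∀ i, orderOf (g i) = qv i - 1 := by
    refine ⟨Function.update g₀ j a, Function.update_self .., ?_⟩
    intro i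
    by_cases h : i = j
    · subst h
      rw [Function.update_self]
      exact ha
    · rw [Function.update_of_ne h]
      exact hg₀ i
  obtain ⟨d, b, hb⟩ := A.free g hg
  have hX : ∀ i, A.dia (Pi.mulSingle i (g i)) ^ (p ^ padicValNat p (qv i - 1)) = 1 := by
    intro i
    rw [← map_pow, ← A.dia_pow (Pi.mulSingle i (g i))]
    congr 1
    funext i'
    by_cases h : i' = i
    · subst h
      simp
    · simp [Pi.mulSingle_eq_of_ne h]
  have hpJ : (p : 𝒪) ∈ Ideal.jacobson (⊥ : Ideal 𝒪) := maximalIdeal_le_jacobson ⊥ hp𝒪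
  have hpnzd : ∀ c : 𝒪, (p : 𝒪) * c = 0 → c = 0 := by
    intro c hc
    rcases mul_eq_zero.mp hc with h | h
    · exact absurd h (by exact_mod_cast hp.ne_zero)
    · exact h
  have key := Fermat.Agent.S59.H314.twCmp_core p hp hp2 𝒪 hpJ hpnzd PQ.T A.MQ r
    (fun i => (ZMod (qv i))ˣ) (fun i => padicValNat p (qv i - 1)) A.dia g hX d b hb j w k hk
    (by rw [hgj]; exact hT j P hP φ hφ σ hσ a ha hcyc a₀ w hw)
    (by rw [hgj]; exact hR j P hP φ hφ σ hσ a ha hcyc a₀ w hw)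
  rw [hgj] at key
  exact key

end

/-- **CMPA** as a leaf statement (route TW-ALG; the analogue of `TW.CmpOfLgcStatement`). -/
def CmpOfTRStatement : Prop :=
  ∀ (p : ℕ) [Fact p.Prime] (_hp2 : p ≠ 2)
    (𝒪 : Type) [CommRing 𝒪] [IsDomain 𝒪] [IsDiscreteValuationRing 𝒪]
    [IsAdicComplete (maximalIdeal 𝒪) 𝒪] [CharZero 𝒪]
    (_hp𝒪 : (p : 𝒪) ∈ maximalIdeal 𝒪)
    (ρbar : ResidualGaloisRep (ResidueField 𝒪)) (Smin : Finset ℕ) (t : PType)
    [NeZero (wilesLevel p t Smin Smin)]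
    (P₀ : HeckePkg p 𝒪 ρbar t Smin Smin)
    (M₀ : Type) [AddCommGroup M₀] [Module P₀.T M₀]
    (r : ℕ) (qv : Fin r → ℕ) (_hqv : ∀ i, (qv i).Prime)
    [NeZero (wilesLevel p t Smin (Smin ∪ Finset.univ.image qv))]
    (PQ : HeckePkg p 𝒪 ρbar t Smin (Smin ∪ Finset.univ.image qv))
    (res : PQ.T →ₐ[𝒪] P₀.T)
    (A : AutLevel P₀ M₀ qv PQ res), TwOrd A → TwT A → TwR A → A.Cmp

theorem cmpOfTR : CmpOfTRStatement := by
  intro p hpF hp2 𝒪 _ _ _ _ _ hp𝒪 ρbar Smin t _ P₀ M₀ _ _ r qv hqv _ PQ res A hO hT hR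
  exact cmp_of_TR hpF.out hp2 hp𝒪 hqv A hO hT hR

end Fermat.Agent.S59.TW.H314
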