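import Fermat.Agent.S59.TW.H314.CmpTR

/-!
# S59, cell TW, layer 2: route TW-ALG in the shape of `TW.CmpOfLgcStatement`  (helper314)

`cmpOfTRIno : InertiaOrderStatement → … → TwT A → TwR A → A.Cmp`: the hypothesis `TwOrd` of
`cmpOfTR` is discharged by INO (same unpacking of the package as in helper73's `TW/H73/Cmpl.lean`).
-/

set_option autoImplicit false
set_option linter.style.haveILetI false

open Polynomial IsLocalRing

namespace Fermat.Agent.S59.TW.H314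

open Fermat.Agent.S59.Arch Fermat.Agent.S59.TW.H959 Fermat.Agent.S59.TW

/-- `TwOrd` from INO. -/
theorem twOrd_of_ino (hINO : InertiaOrderStatement) (p : ℕ) [Fact p.Prime]
    (𝒪 : Type) [CommRing 𝒪] [IsDomain 𝒪] [IsDiscreteValuationRing 𝒪]
    [IsAdicComplete (maximalIdeal 𝒪) 𝒪] [Finite (ResidueField 𝒪)]
    (ρbar : ResidualGaloisRep (ResidueField 𝒪)) (Smin : Finset ℕ)
    (h : ResidualHyp p 𝒪 ρbar Smin) (t : PType)
    [NeZero (wilesLevel p t Smin Smin)]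
    (P₀ : HeckePkg p 𝒪 ρbar t Smin Smin)
    (M₀ : Type) [AddCommGroup M₀] [Module P₀.T M₀]
    (n r : ℕ) (qv : Fin r → ℕ) (hq : IsTWSet p ρbar Smin n qv)
    [NeZero (wilesLevel p t Smin (Smin ∪ Finset.univ.image qv))]
    (PQ : HeckePkg p 𝒪 ρbar t Smin (Smin ∪ Finset.univ.image qv))
    (res : PQ.T →ₐ[𝒪] P₀.T)
    (A : AutLevel P₀ M₀ qv PQ res) : TwOrd A := by
  intro j P hP φ hφ σ hσ a _ha _hcyc a₀ w hw
  obtain ⟨-, hqv, -⟩ := hq
  obtain ⟨hqprime, hqS, hqdvd⟩ := hqv j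
  have hdet : PQ.H.ρ.DetIsCyclotomic p := by
    have h1 := PQ.hcond.1
    cases t <;> exact h1.1
  have hqp : qv j ≠ p := fun e => hqS (e ▸ h.hpSmin)
  have hpq : p ∣ qv j - 1 := dvd_trans (dvd_pow_self p (Nat.succ_ne_zero n)) hqdvd
  have hunr : PQ.H.ρ.residual.IsUnramifiedAt (qv j) := by
    have h1 : ρbar.IsUnramifiedAt (qv j) := by
      by_contra hcon
      exact hqS ((h.hmin (qv j) hqprime hqp).mpr hcon)
    obtain ⟨e⟩ := PQ.hres
    intro B hB τ hτ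
    have h2 : (ρbar.baseChangeAlong (ResidueField.map (algebraMap 𝒪 PQ.T))).ρ τ = 1 := by
      letI : Algebra (ResidueField 𝒪) (ResidueField PQ.T) :=
        (ResidueField.map (algebraMap 𝒪 PQ.T)).toAlgebra
      show (ρbar.ρ τ).baseChange (ResidueField PQ.T) = 1
      rw [h1 B hB τ hτ]
      exact LinearMap.baseChange_one _ _
    refine LinearMap.ext fun x => ?_
    apply e.toLinearEquiv.injective
    rw [e.map_apply, h2]
    rfl
  haveI : Finite (ResidueField PQ.T) := IsLocalRing.ResidueField.finite_of_finite (R := 𝒪) ‹_›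
  obtain ⟨w', -, hwp, -⟩ :=
    hINO p PQ.T hdet.1 PQ.H.ρ hdet (qv j) hqprime hqp hpq hunr P hP φ hφ σ hσ a₀ w hw
  exact ⟨_, hwp⟩

/-- **CMPA** in the shape of `TW.CmpOfLgcStatement` (`Lgc` replaced by `TwT` and `TwR`). -/
def CmpOfTRInoStatement : Prop :=
  InertiaOrderStatement →
  ∀ (p : ℕ) [Fact p.Prime] (_hp2 : p ≠ 2)
    (𝒪 : Type) [CommRing 𝒪] [IsDomain 𝒪] [IsDiscreteValuationRing 𝒪]
    [IsAdicComplete (maximalIdeal 𝒪) 𝒪] [Finite (ResidueField 𝒪)] [CharZero 𝒪]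
    (ρbar : ResidualGaloisRep (ResidueField 𝒪)) (Smin : Finset ℕ)
    (_h : ResidualHyp p 𝒪 ρbar Smin) (t : PType)
    [NeZero (wilesLevel p t Smin Smin)]
    (P₀ : HeckePkg p 𝒪 ρbar t Smin Smin)
    (M₀ : Type) [AddCommGroup M₀] [Module P₀.T M₀]
    (n r : ℕ) (qv : Fin r → ℕ) (_hq : IsTWSet p ρbar Smin n qv)
    [NeZero (wilesLevel p t Smin (Smin ∪ Finset.univ.image qv))]
    (PQ : HeckePkg p 𝒪 ρbar t Smin (Smin ∪ Finset.univ.image qv))
    (res : PQ.T →ₐ[𝒪] P₀.T)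
    (A : AutLevel P₀ M₀ qv PQ res), TwT A → TwR A → A.Cmp

theorem cmpOfTRIno : CmpOfTRInoStatement := by
  intro hINO p hpF hp2 𝒪 _ _ _ _ _ _ ρbar Smin h t _ P₀ M₀ _ _ n r qv hq _ PQ res A hT hR
  have hO := twOrd_of_ino hINO p 𝒪 ρbar Smin h t P₀ M₀ n r qv hq PQ res A
  exact cmp_of_TR hpF.out hp2 h.hp𝒪 (fun i => (hq.2.1 i).1) A hO hT hR

end Fermat.Agent.S59.TW.H314
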