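import Fermat.Agent.S59.TW.H314.GalCore

/-!
# Row S59, cell TW, layer 4: leaf GAL-T  (helper314)

`galT : S30Statement → S35Statement → GalTStatement`: at a newform point `emb : T_Q → O'` of a
level `M` with `q_j² ∤ M` the inertia value at `q_j` is `1`.

* `q_j ∤ M`: the representation `ρ''` of the frozen S30 (level `M`, character `iota ∘ chig`) is
  unramified at `q_j` and has the traces of `ρ_Q` (`newPt_trace_transfer`), so
  `(a - b) w = tr ρ''(φ σ) - b tr ρ''(σ) = (a + b) - 2 b = a - b`.
* `q_j ∥ M`: by the frozen S35, `tr ρ''(φ) = ± (q_j + 1)`, and `det ρ_Q(φ) = q_j`, so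
  `(a - b)² = (q_j - 1)²` is not a unit: contradiction with `IsInertiaValue`.
-/

set_option autoImplicit false
set_option linter.style.haveILetI false

open Polynomial IsLocalRing CongruenceSubgroup
open scoped MatrixGroups

namespace Fermat.Agent.S59.TW.H314

open Fermat.Agent.S59.Arch Fermat.Agent.S59.TW.H959 Fermat.Agent.S59.TW.H653
  Fermat.Agent.S59.TW.Aut

/-- **GAL-T.** -/
theorem galT (h30 : Fermat.Agent.S31.S30Statement) (h35 : Fermat.Agent.S58.S35Statement) :
    GalTStatement := by
  intro p hpF 𝒪 _ _ _ _ _ _ ρbar Smin h t _ n r qv hq _ PQ j P hP φ hφ σ hσ a₀ w hw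
    O' _ _ _ _ _ _ emb hemb hnew
  obtain ⟨M, hM0, g, hg, hM2, hMS, chig, iota, hchig, hcompat⟩ := hnew
  have hprime : ∀ j, (qv j).Prime := fun j => (hq.2.1 j).1
  obtain ⟨hqprime, hqS, hqdvd⟩ := hq.2.1 j
  have hqp : qv j ≠ p := fun e => hqS (e ▸ h.hpSmin)
  have hpq : p ∣ qv j - 1 := dvd_trans (dvd_pow_self p (Nat.succ_ne_zero n)) hqdvd
  have hpS : p ∈ Smin ∪ Finset.univ.image qv := Finset.mem_union_left _ h.hpSmin
  have hdetQ : PQ.H.ρ.DetIsCyclotomic p := by
    have h1 := PQ.hcond.1
    cases t <;> exact h1.1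
  -- `p` is in the maximal ideal of `O'`
  have hpO' : (p : O') ∈ maximalIdeal O' := by
    rw [mem_maximalIdeal, mem_nonunits_iff]
    intro hu
    have h1 : IsUnit (emb (p : PQ.T)) := by rwa [map_natCast]
    haveI := hemb
    have h2 : IsUnit (p : PQ.T) := isUnit_of_map_unit emb _ h1
    exact hdetQ.1 h2
  obtain ⟨a, b, hu, htr, hdet, hform⟩ := inertiaValue_data hw
  by_cases hqM : qv j ∣ M
  · -- `q_j ∥ M`: impossible
    exfalso
    obtain ⟨O'', _, _, _, _, _, _, _, _, _, hinj, ρ'', hρ, hbad⟩ :=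
      h35 hg p (Smin ∪ Finset.univ.image qv) O' hpO' chig hchig iota hpS hMS
    have htrans := newPt_trace_transfer PQ h.hSmin h.hpSmin hprime emb hemb hMS chig iota hcompat
      ρ'' (fun ℓ hℓ _ hℓM hℓS => hρ ℓ hℓ hℓM hℓS)
    have hpO'' : (p : O'') ∈ maximalIdeal O'' := by
      rw [mem_maximalIdeal, mem_nonunits_iff]
      intro hu
      have h1 : IsUnit (algebraMap O' O'' (p : O')) := by rwa [map_natCast]
      exact hpO' (isUnit_of_map_unit (algebraMap O' O'') _ h1)
    -- the trace of `ρ''(φ)`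
    have hc : ρ''.trace φ = ((qv j : O'') + 1) ∨ ρ''.trace φ = -((qv j : O'') + 1) := by
      rcases hbad (qv j) hqprime hqp hqM hM2 P hP φ hφ with hc | hc
      · left
        exact Fermat.Agent.S59.H765.trace_eq_of_charpoly ρ''.finrank_eq _ _ _ hc
      · right
        refine Fermat.Agent.S59.H765.trace_eq_of_charpoly ρ''.finrank_eq _ _ (qv j : O'') ?_
        rw [hc, map_neg, neg_mul, sub_neg_eq_add]
    have hsum : algebraMap O' O'' (emb a) + algebraMap O' O'' (emb b) = ρ''.trace φ := by
      rw [← htrans φ, htr, map_add, map_add]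
    have hprod : algebraMap O' O'' (emb a) * algebraMap O' O'' (emb b) = (qv j : O'') := by
      rw [← map_mul, ← map_mul, ← hdet,
        det_frob_eq PQ.H.ρ hpF.out hqprime hqp hdetQ hP hφ, map_natCast, map_natCast]
    have hsq : (algebraMap O' O'' (emb (a - b))) ^ 2 = ((qv j : O'') - 1) ^ 2 := by
      have h1 : (algebraMap O' O'' (emb (a - b))) ^ 2 =
          (algebraMap O' O'' (emb a) + algebraMap O' O'' (emb b)) ^ 2 -
            4 * (algebraMap O' O'' (emb a) * algebraMap O' O'' (emb b)) := by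
        rw [map_sub, map_sub]
        ring
      rw [h1, hsum, hprod]
      rcases hc with hc | hc <;> rw [hc] <;> ring
    have hunit : IsUnit ((algebraMap O' O'' (emb (a - b))) ^ 2) :=
      ((hu.map emb).map (algebraMap O' O'')).pow 2
    have hmem : ((qv j : O'') - 1) ^ 2 ∈ maximalIdeal O'' := by
      obtain ⟨k, hk⟩ := hpq
      have h1 : ((qv j : O'') - 1) = (p : O'') * (k : O'') := by
        have h2 : qv j = p * k + 1 := by
          have := hqprime.one_lt
          omega
        rw [h2]
        push_cast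
        ring
      rw [h1, sq]
      exact Ideal.mul_mem_right _ _ (Ideal.mul_mem_right _ _ hpO'')
    rw [hsq] at hunit
    exact hmem hunit
  · -- `q_j ∤ M`: unramified
    obtain ⟨O'', _, _, _, _, _, _, _, _, _, hinj, ρ'', hρ, hunr⟩ :=
      h30 p M (Smin ∪ Finset.univ.image qv) hpS hMS O' hpO' (iota.comp chig.rangeRestrict)
    have htrans := newPt_trace_transfer PQ h.hSmin h.hpSmin hprime emb hemb hMS chig iota hcompat
      ρ'' (fun ℓ hℓ _ hℓM hℓS => hρ ℓ hℓ hℓM hℓS)
    have hσ1 : ρ''.ρ σ = 1 := hunr (qv j) hqprime hqM hqp P hP σ hσ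
    have h1 : ρ''.trace (φ * σ) = ρ''.trace φ := by
      unfold GaloisRepAdic.trace
      rw [map_mul, hσ1, mul_one]
    have h2 : ρ''.trace σ = 2 := by
      unfold GaloisRepAdic.trace
      rw [hσ1, LinearMap.trace_one, ρ''.finrank_eq]
      norm_num
    have h3 : algebraMap O' O'' (emb (a - b)) * algebraMap O' O'' (emb w) =
        algebraMap O' O'' (emb (a - b)) := by
      rw [← map_mul, ← map_mul, hform, map_sub, map_sub, map_mul, map_mul, htrans, htrans, h1,
        h2, ← htrans φ, htr, map_add, map_add, map_sub, map_sub]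
      ring
    have hunit : IsUnit (algebraMap O' O'' (emb (a - b))) := (hu.map emb).map (algebraMap O' O'')
    have h4 : algebraMap O' O'' (emb w) = 1 := by
      have := hunit.mul_left_cancel (b := algebraMap O' O'' (emb w)) (c := 1)
        (by rw [h3, mul_one])
      exact this
    apply hinj
    rw [h4, map_one]

end Fermat.Agent.S59.TW.H314
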