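import Fermat.Agent.S59.TW.H314.CmpGlue
import Fermat.Agent.S59.TW.H314.GalT
import Fermat.Agent.S59.TW.H788.GalR

/-!
# Row S59, cell TW, layer 3 leaf CMP: the wiring  (helper314)

`cmp_of_dict`: the leaf `Aut.CmpStatement` from the leaf FREE, the two automorphic dictionary
leaves DICT-T / DICT-R (`CmpSpec.lean`) and the frozen statements S30, S35, S36
(GAL-T: `GalT.lean`; GAL-R: `TW/H788/GalR.lean`, helper788).
-/

set_option autoImplicit false

namespace Fermat.Agent.S59.TW.H314

open Fermat.Agent.S59.TW.Aut

/-- **Leaf CMP from FREE + DICT-T + DICT-R + S30 + S35 + S36.** -/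
theorem cmp_of_dict (free : FreeQStatement) (dT : DictTStatement) (dR : DictRStatement)
    (h30 : Fermat.Agent.S31.S30Statement) (h35 : Fermat.Agent.S58.S35Statement)
    (h36 : Fermat.Agent.S58.S36Statement) : CmpStatement :=
  cmp_of_leaves free dT dR (galT h30 h35) (Fermat.Agent.S59.TW.H788.galR788 h36)

end Fermat.Agent.S59.TW.H314
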