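import Fermat.Agent.S59.TW.H314.CmpSpec
import Fermat.Agent.S59.TW.H788.ResGal
import Fermat.Agent.S59.H540.DetCyc
import Fermat.Agent.Lib.Cheb.H476.Strong
import Fermat.Agent.S59.Arch.WilesLevel

/-!
# Row S59, cell TW, layer 4: Galois half of the leaf CMP — common tools  (helper314)

* `newPt_trace_transfer` : at a newform point `emb : T_Q → O'` a representation `ρ''` over
  `O'' ⊇ O'` with the Frobenius characteristic polynomials of the newform has the traces of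
  `ρ_Q`: `tr ρ''(σ) = emb (tr ρ_Q(σ))` for ALL `σ` (Chebotarev: `H788.map_trace_eq_of_frob`).
* `det_frob_eq` : `det ρ(Frob_q) = q` for a representation with cyclotomic determinant.
* `inertiaValue_data` : the trace formulas behind `IsInertiaValue`.
-/

set_option autoImplicit false
set_option linter.style.haveILetI false
set_option linter.unusedSectionVars false

open Polynomial IsLocalRing CongruenceSubgroup
open scoped MatrixGroups

namespace Fermat.Agent.S59.TW.H314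

open Fermat.Agent.S59.Arch Fermat.Agent.S59.TW.H959 Fermat.Agent.S59.TW.H653
  Fermat.Agent.S59.TW.Aut

section Det

variable {A : Type} [CommRing A] [IsLocalRing A] [IsNoetherianRing A]

/-- `det ρ(Frob_q) = q` for a representation with cyclotomic determinant (`q ≠ p`). -/
theorem det_frob_eq (ρ : GaloisRepAdic A) {p q : ℕ} (hp : p.Prime) (hq : q.Prime) (hqp : q ≠ p)
    (hdet : ρ.DetIsCyclotomic p) {P : ValuationSubring Qb} (hP : P.LiesOverPrime q) {φ : GQ}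
    (hφ : P.IsFrobeniusAt φ q) : LinearMap.det (ρ.ρ φ) = (q : A) := by
  have h1 : ∀ n : ℕ, LinearMap.det (ρ.ρ φ) - (q : A) ∈ maximalIdeal A ^ n := by
    intro n
    have h2 := hdet.2 n φ q (fun μ hμ =>
      Fermat.Agent.Lib.Cheb.H476.isFrobeniusAt_apply_of_pow_eq_one hq hP hφ
        (fun hdvd => hqp ((Nat.prime_dvd_prime_iff_eq hq hp).mp (hq.dvd_of_dvd_pow hdvd))) hμ)
    have h4 : Ideal.span {((p ^ n : ℕ) : A)} ≤ maximalIdeal A ^ n := by
      rw [Ideal.span_le, Set.singleton_subset_iff, Nat.cast_pow]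
      exact Ideal.pow_mem_pow hdet.1 n
    exact h4 h2
  have h5 : LinearMap.det (ρ.ρ φ) - (q : A) ∈ (⨅ n : ℕ, maximalIdeal A ^ n : Ideal A) := by
    rw [Ideal.mem_iInf]
    exact h1
  rw [Ideal.iInf_pow_eq_bot_of_isLocalRing _ (Ideal.IsMaximal.ne_top inferInstance)] at h5
  exact sub_eq_zero.mp (by simpa using h5)

end Det

section Inertia

variable {A : Type} [CommRing A] [IsLocalRing A]

/-- The trace formulas behind `IsInertiaValue`. -/
theorem inertiaValue_data {ρ : GaloisRepAdic A} {φ σ : GQ} {a₀ w : A}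
    (hw : IsInertiaValue ρ φ σ a₀ w) :
    ∃ a b : A, IsUnit (a - b) ∧ ρ.trace φ = a + b ∧ LinearMap.det (ρ.ρ φ) = a * b ∧
      (a - b) * w = ρ.trace (φ * σ) - b * ρ.trace σ := by
  obtain ⟨a, b, -, hu, hchar, hform⟩ := hw
  have hA : Nontrivial A := inferInstance
  have hchar' : LinearMap.charpoly (ρ.ρ φ) = X ^ 2 - C (a + b) * X + C (a * b) := by
    rw [hchar]
    simp only [map_add, map_mul]
    ring
  refine ⟨a, b, hu, ?_, ?_, hform⟩
  · exact Fermat.Agent.S59.H765.trace_eq_of_charpoly ρ.finrank_eq _ _ _ hchar'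
  · exact Fermat.Agent.S59.H540.det_eq_of_charpoly ρ.finrank_eq _ _ _ hchar'

end Inertia

section Transfer

variable {p : ℕ} [hpF : Fact p.Prime]
  {𝒪 : Type} [CommRing 𝒪] [IsDomain 𝒪] [IsDiscreteValuationRing 𝒪]
  [IsAdicComplete (maximalIdeal 𝒪) 𝒪]
  {ρbar : ResidualGaloisRep (ResidueField 𝒪)} {t : PType} {Smin : Finset ℕ}
  {r : ℕ} {qv : Fin r → ℕ}
  [NeZero (wilesLevel p t Smin (Smin ∪ Finset.univ.image qv))]

include hpF in
/-- the primes dividing `N_Q` lie in `Σ_Q` -/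
theorem mem_sigQ_of_dvd (hS : ∀ q ∈ Smin, q.Prime) (hpS : p ∈ Smin)
    (hprime : ∀ j, (qv j).Prime) (q : ℕ) (hq : q.Prime)
    (hqN : q ∣ wilesLevel p t Smin (Smin ∪ Finset.univ.image qv)) :
    q ∈ Smin ∪ Finset.univ.image qv := by
  have hSig : ∀ q ∈ Smin ∪ Finset.univ.image qv, q.Prime := by
    intro q hq
    rcases Finset.mem_union.mp hq with h' | h'
    · exact hS q h'
    · obtain ⟨j, -, rfl⟩ := Finset.mem_image.mp h'
      exact hprime j
  exact mem_of_prime_dvd_wilesLevel hpF.out hS hSig hpS Finset.subset_union_left q hq hqN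

include hpF in
/-- **Trace transfer along a newform point.** -/
theorem newPt_trace_transfer (PQ : HeckePkg p 𝒪 ρbar t Smin (Smin ∪ Finset.univ.image qv))
    (hS : ∀ q ∈ Smin, q.Prime) (hpS : p ∈ Smin) (hprime : ∀ j, (qv j).Prime)
    {O' : Type} [CommRing O'] [IsLocalRing O'] (emb : PQ.T →+* O') (hemb : IsLocalHom emb)
    {O'' : Type} [CommRing O''] [IsLocalRing O''] [IsNoetherianRing O''] [Algebra O' O'']
    [IsLocalHom (algebraMap O' O'')]
    {M : ℕ} [NeZero M] (hMS : ∀ q : ℕ, q.Prime → q ∣ M → q ∈ Smin ∪ Finset.univ.image qv)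
    (chig : CuspForm.heckeAlgebra M 2 (↑(Smin ∪ Finset.univ.image qv) : Set ℕ) →+* ℂ)
    (iota : chig.range →+* O')
    (hcompat : ∀ (ℓ : ℕ) (hℓ : ℓ.Prime)
      (hℓN : ¬ ℓ ∣ wilesLevel p t Smin (Smin ∪ Finset.univ.image qv)) (hℓM : ¬ ℓ ∣ M)
      (hℓS : ℓ ∉ (↑(Smin ∪ Finset.univ.image qv) : Set ℕ)),
      iota (chig.rangeRestrict (CuspForm.heckeAlgebra.T hℓ hℓM hℓS)) =
        emb (PQ.H.π (CuspForm.heckeAlgebra.T hℓ hℓN hℓS)))
    (ρ'' : GaloisRepAdic O'')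
    (hρ : ∀ (ℓ : ℕ) (hℓ : ℓ.Prime) (_hℓp : ℓ ≠ p) (hℓM : ¬ ℓ ∣ M)
      (hℓS : ℓ ∉ (↑(Smin ∪ Finset.univ.image qv) : Set ℕ)),
      ∀ A : ValuationSubring (AlgebraicClosure ℚ), A.LiesOverPrime ℓ →
        ∀ σ : AlgebraicClosure ℚ ≃ₐ[ℚ] AlgebraicClosure ℚ, A.IsFrobeniusAt σ ℓ →
          LinearMap.charpoly (ρ''.ρ σ) =
            X ^ 2 - C (algebraMap O' O'' ((iota.comp chig.rangeRestrict)
              (CuspForm.heckeAlgebra.T hℓ hℓM hℓS))) * X + C ((ℓ : O'')))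
    (σ : GQ) : algebraMap O' O'' (emb (PQ.H.ρ.trace σ)) = ρ''.trace σ := by
  have hloc : IsLocalHom ((algebraMap O' O'').comp emb) := by
    haveI := hemb
    exact RingHom.isLocalHom_comp _ _
  refine Fermat.Agent.S59.TW.H788.map_trace_eq_of_frob ((algebraMap O' O'').comp emb) hloc
    PQ.H.ρ ρ'' (Smin ∪ Finset.univ.image qv) ?_ σ
  intro ℓ hℓ hℓF B hB τ hτ
  have hℓS : ℓ ∉ (↑(Smin ∪ Finset.univ.image qv) : Set ℕ) := fun h => hℓF (Finset.mem_coe.mp h)
  have hℓN : ¬ ℓ ∣ wilesLevel p t Smin (Smin ∪ Finset.univ.image qv) := fun h =>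
    hℓF (mem_sigQ_of_dvd hS hpS hprime ℓ hℓ h)
  have hℓM : ¬ ℓ ∣ M := fun h => hℓF (hMS ℓ hℓ h)
  have hℓp : ℓ ≠ p := fun h => hℓF (h ▸ Finset.mem_union_left _ hpS)
  have h1 : PQ.H.ρ.trace τ = PQ.H.π (CuspForm.heckeAlgebra.T hℓ hℓN hℓS) :=
    Fermat.Agent.S59.H765.trace_eq_of_charpoly PQ.H.ρ.finrank_eq _ _ _
      (PQ.H.charpoly_frob ℓ hℓ hℓN hℓS B hB τ hτ)
  have h2 : ρ''.trace τ = algebraMap O' O'' ((iota.comp chig.rangeRestrict)
      (CuspForm.heckeAlgebra.T hℓ hℓM hℓS)) :=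
    Fermat.Agent.S59.H765.trace_eq_of_charpoly ρ''.finrank_eq _ _ _
      (hρ ℓ hℓ hℓp hℓM hℓS B hB τ hτ)
  rw [h2, RingHom.comp_apply, h1, RingHom.comp_apply, hcompat ℓ hℓ hℓN hℓM hℓS]

end Transfer

end Fermat.Agent.S59.TW.H314
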