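import Fermat.Agent.S59.TW.H314.CmpTRIno
import Fermat.Agent.S59.H314.TwT

/-!
# S59, cell TW, layer 2: `TwT` from nilpotency  (helper314)

`TwTpow A`: some power of `w - 1` maps `M_Q` into `(dia_j a - 1) M_Q`.  This is what S34 gives directly:
`T_Q` acts on `M_Q / (dia_j a - 1) M_Q` through a Hecke algebra of a level `N'` with `q_j ∥ N'`, inertia at
`q_j` is unipotent there and `charpoly ρ(σ) = (X - w)(X - w⁻¹)` (INO), so `(w - 1)^2` acts as `0`.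
`twT_of_pow : TwOrd A → TwTpow A → TwT A` (pure algebra), and
`twR_of_pt : TwRpt A → TwR A` (associated primes of the Noetherian ring `T_Q`), and
`cmpOfTpowR : InertiaOrderStatement → … → TwTpow A → TwRpt A → A.Cmp`.
-/

set_option autoImplicit false
set_option linter.style.haveILetI false

open Polynomial IsLocalRing

namespace Fermat.Agent.S59.TW.H314

open Fermat.Agent.S59.Arch Fermat.Agent.S59.TW.H959 Fermat.Agent.S59.TW

section

variable {p : ℕ}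
  {𝒪 : Type} [CommRing 𝒪] [IsDomain 𝒪] [IsDiscreteValuationRing 𝒪]
  [IsAdicComplete (maximalIdeal 𝒪) 𝒪]
  {ρbar : ResidualGaloisRep (ResidueField 𝒪)} {t : PType} {Smin : Finset ℕ}
  [NeZero (wilesLevel p t Smin Smin)] {P₀ : HeckePkg p 𝒪 ρbar t Smin Smin}
  {M₀ : Type} [AddCommGroup M₀] [Module P₀.T M₀] {r : ℕ} {qv : Fin r → ℕ}
  [NeZero (wilesLevel p t Smin (Smin ∪ Finset.univ.image qv))]
  {PQ : HeckePkg p 𝒪 ρbar t Smin (Smin ∪ Finset.univ.image qv)}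
  {res : PQ.T →ₐ[𝒪] P₀.T}

/-- **(T), nilpotent form**: some power of `w - 1` kills the `Δ_{q_j}`-coinvariants of `M_Q`. -/
def TwTpow (A : AutLevel P₀ M₀ qv PQ res) : Prop :=
  ∀ (j : Fin r) (P : ValuationSubring Qb), P.LiesOverPrime (qv j) →
    ∀ φ : GQ, P.IsFrobeniusAt φ (qv j) →
    ∀ σ ∈ P.inertiaSubgroupIn ℚ, ∀ a : (ZMod (qv j))ˣ, orderOf a = qv j - 1 →
      CycloAt (qv j) σ (a : ZMod (qv j)).val →
      ∀ a₀ w : PQ.T, IsInertiaValue PQ.H.ρ φ σ a₀ w →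
        ∃ k : ℕ, ∀ y : A.MQ, ∃ y' : A.MQ, (w - 1) ^ k • y = A.dia (Pi.mulSingle j a) y' - y'

/-- `TwOrd + TwTpow ⇒ TwT`. -/
theorem twT_of_pow (hp : p.Prime) [CharZero 𝒪] (hqv : ∀ i, (qv i).Prime)
    (A : AutLevel P₀ M₀ qv PQ res) (hO : TwOrd A) (hT : TwTpow A) : TwT A := by
  classical
  intro j P hP φ hφ σ hσ a ha hcyc a₀ w hw
  obtain ⟨s, hs⟩ := hO j P hP φ hφ σ hσ a ha hcyc a₀ w hw
  obtain ⟨k, hk⟩ := hT j P hP φ hφ σ hσ a ha hcyc a₀ w hw
  have hprim : ∀ i, ∃ g : (ZMod (qv i))ˣ, orderOf g = qv i - 1 := by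
    intro i
    have : Fact (qv i).Prime := ⟨hqv i⟩
    have := ZMod.isCyclic_units_prime (hqv i)
    obtain ⟨g, hg⟩ := IsCyclic.exists_ofOrder_eq_natCard (α := (ZMod (qv i))ˣ)
    refine ⟨g, ?_⟩
    rw [hg, Nat.card_eq_fintype_card, ZMod.card_units]
  choose g₀ hg₀ using hprim
  obtain ⟨g, hgj, hg⟩ : ∃ g : ∀ i : Fin r, (ZMod (qv i))ˣ, g j = a ∧
      ∀ i, orderOf (g i) = qv i - 1 := by
    refine ⟨Function.update g₀ j a, Function.update_self .., ?_⟩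
    intro i
    by_cases h : i = j
    · subst h
      rw [Function.update_self]
      exact ha
    · rw [Function.update_of_ne h]
      exact hg₀ i
  obtain ⟨d, b, hb⟩ := A.free g hg
  have hX : ∀ i, A.dia (Pi.mulSingle i (g i)) ^ (p ^ padicValNat p (qv i - 1)) = 1 := by
    intro i
    rw [← map_pow, ← A.dia_pow (Pi.mulSingle i (g i))]
    congr 1
    funext i'
    by_cases h : i' = i
    · subst h
      simp
    · simp [Pi.mulSingle_eq_of_ne h]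
  have hpnzd : ∀ c : 𝒪, (p : 𝒪) * c = 0 → c = 0 := by
    intro c hc
    rcases mul_eq_zero.mp hc with h | h
    · exact absurd h (by exact_mod_cast hp.ne_zero)
    · exact h
  have key := Fermat.Agent.S59.H314.twT_core p hp 𝒪 hpnzd PQ.T A.MQ r
    (fun i => (ZMod (qv i))ˣ) (fun i => padicValNat p (qv i - 1)) A.dia g hX d b hb j w s hs k
    (by rw [hgj]; exact hk)
  rw [hgj] at key
  exact key

/-- **(R), pointwise form**: a nonzero vector of `M_Q` with PRIME annihilator in `T_Q` (an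
"eigenvector over the domain `T_Q / Ann`") on which the diamond operator at `q_j` has order exactly
`p` is not fixed by the inertia value. -/
def TwRpt (A : AutLevel P₀ M₀ qv PQ res) : Prop :=
  ∀ (j : Fin r) (P : ValuationSubring Qb), P.LiesOverPrime (qv j) →
    ∀ φ : GQ, P.IsFrobeniusAt φ (qv j) →
    ∀ σ ∈ P.inertiaSubgroupIn ℚ, ∀ a : (ZMod (qv j))ˣ, orderOf a = qv j - 1 →
      CycloAt (qv j) σ (a : ZMod (qv j)).val →
      ∀ a₀ w : PQ.T, IsInertiaValue PQ.H.ρ φ σ a₀ w →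
        ∀ y : A.MQ, y ≠ 0 →
          (∑ k ∈ Finset.range p, A.dia (Pi.mulSingle j a) ^ k) y = 0 →
          (∀ s t : PQ.T, (s * t) • y = 0 → s • y = 0 ∨ t • y = 0) → w • y ≠ y

/-- `TwRpt ⇒ TwR` (`T_Q` is Noetherian: associated primes). -/
theorem twR_of_pt (A : AutLevel P₀ M₀ qv PQ res) (hR : TwRpt A) : TwR A := by
  classical
  intro j P hP φ hφ σ hσ a ha hcyc a₀ w hw y hwy hΦy
  by_contra hy0
  obtain ⟨Φ, hΦ⟩ : ∃ Φ : Module.End PQ.T A.MQ,
      Φ = ∑ k ∈ Finset.range p, A.dia (Pi.mulSingle j a) ^ k := ⟨_, rfl⟩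
  rw [← hΦ] at hΦy
  have hR' := hR j P hP φ hφ σ hσ a ha hcyc a₀ w hw
  rw [← hΦ] at hR'
  obtain ⟨K, hK⟩ : ∃ K : Submodule PQ.T A.MQ, ∀ z, z ∈ K ↔ w • z = z ∧ Φ z = 0 := by
    refine ⟨LinearMap.ker (LinearMap.lsmul PQ.T A.MQ (w - 1)) ⊓ LinearMap.ker Φ, fun z => ?_⟩
    rw [Submodule.mem_inf, LinearMap.mem_ker, LinearMap.mem_ker, LinearMap.lsmul_apply, sub_smul,
      one_smul, sub_eq_zero]
  have hyK : y ∈ K := (hK y).mpr ⟨hwy, hΦy⟩
  have hx : (⟨y, hyK⟩ : K) ≠ 0 := fun h => hy0 (congrArg Subtype.val h)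
  obtain ⟨I, hI, -⟩ := exists_le_isAssociatedPrime_of_isNoetherianRing PQ.T (⟨y, hyK⟩ : K) hx
  rw [isAssociatedPrime_iff] at hI
  obtain ⟨hprime, v, hv⟩ := hI
  have hmem : ∀ s : PQ.T, s ∈ I ↔ s • (v : A.MQ) = 0 := by
    intro s
    rw [hv, Submodule.mem_colon_singleton, Submodule.mem_bot]
    constructor
    · intro h
      have := congrArg Subtype.val h
      simpa using this
    · intro h
      apply Subtype.ext
      simpa using h
  have hv0 : (v : A.MQ) ≠ 0 := by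
    intro h
    apply hprime.ne_top
    rw [Ideal.eq_top_iff_one, hmem, h, smul_zero]
  have hvK := (hK v).mp v.2
  refine hR' (v : A.MQ) hv0 hvK.2 ?_ hvK.1
  intro s t hst
  rw [← hmem] at hst ⊢
  rw [← hmem]
  exact hprime.mem_or_mem hst

end

/-- **CMPA, pointwise form** (shape of `TW.CmpOfLgcStatement`): INO + `TwTpow` + `TwRpt` ⇒ `Cmp`. -/
def CmpOfTpowRStatement : Prop :=
  InertiaOrderStatement →
  ∀ (p : ℕ) [Fact p.Prime] (_hp2 : p ≠ 2)
    (𝒪 : Type) [CommRing 𝒪] [IsDomain 𝒪] [IsDiscreteValuationRing 𝒪]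
    [IsAdicComplete (maximalIdeal 𝒪) 𝒪] [Finite (ResidueField 𝒪)] [CharZero 𝒪]
    (ρbar : ResidualGaloisRep (ResidueField 𝒪)) (Smin : Finset ℕ)
    (_h : ResidualHyp p 𝒪 ρbar Smin) (t : PType)
    [NeZero (wilesLevel p t Smin Smin)]
    (P₀ : HeckePkg p 𝒪 ρbar t Smin Smin)
    (M₀ : Type) [AddCommGroup M₀] [Module P₀.T M₀]
    (n r : ℕ) (qv : Fin r → ℕ) (_hq : IsTWSet p ρbar Smin n qv)
    [NeZero (wilesLevel p t Smin (Smin ∪ Finset.univ.image qv))]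
    (PQ : HeckePkg p 𝒪 ρbar t Smin (Smin ∪ Finset.univ.image qv))
    (res : PQ.T →ₐ[𝒪] P₀.T)
    (A : AutLevel P₀ M₀ qv PQ res), TwTpow A → TwRpt A → A.Cmp

theorem cmpOfTpowR : CmpOfTpowRStatement := by
  intro hINO p hpF hp2 𝒪 _ _ _ _ _ _ ρbar Smin h t _ P₀ M₀ _ _ n r qv hq _ PQ res A hT hR
  have hO := twOrd_of_ino hINO p 𝒪 ρbar Smin h t P₀ M₀ n r qv hq PQ res A
  have hqv : ∀ i, (qv i).Prime := fun i => (hq.2.1 i).1
  exact cmp_of_TR hpF.out hp2 h.hp𝒪 hqv A hO (twT_of_pow hpF.out hqv A hO hT)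
    (twR_of_pt A hR)

end Fermat.Agent.S59.TW.H314
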